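/-
Project BAD, block LevelQ, sub-block PT-INST (owner helper185): the two packages of extra data at
level `M q` which the analysis of the closed points (LQ-PT) consumes besides the hub `LQ`:

* `EtaData`   : the pair `x, y` with `x y = ε q`, cutting out the two components (nodes);
* `CuspData2` : the modular equation near the cusps and Kronecker's congruences
                (`BAD.Model.CuspData` for two components).

Abstract language (`S18/Defs`, `BAD/Model/Defs`); Mathlib + these two files only.
-/
import Mathlib
import Fermat.Agent.S18.Defs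
import Fermat.Agent.BAD.Model.Defs

set_option autoImplicit false

noncomputable section

namespace Fermat.Agent.BAD.LevelQ.Inst

open Fermat.Agent.S18 Fermat.Agent.BAD.Model

variable {K₀ F : Type*} [Field K₀] [Field F] [Algebra K₀ F]

/-- `x y = ε q`, `x` is a unit of `V 0` and a non-unit of `V 1`, `y` is a unit of `V 1` and a
non-unit of `V 0`; both are regular on the chart `B₁`. -/
structure EtaData (A₀ : ValuationSubring K₀) (q : ℕ) (V : Fin 2 → ValuationSubring F)
    (B₁ : Subring F) (ε : K₀) (x y : F) : Prop where
  eps_unit : A₀.valuation ε = 1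
  mul : x * y = algebraMap K₀ F (ε * (q : K₀))
  val0_x : (V 0).valuation x = 1
  val1_y : (V 1).valuation y = 1
  val0_y : (V 0).valuation y < 1
  val1_x : (V 1).valuation x < 1
  x_mem : x ∈ B₁
  y_mem : y ∈ B₁

/-- The input of the cusp analysis at level `M q`: `s = 1 / j(z)`, `s' = 1 / j(q z)`. -/
structure CuspData2 (A₀ : ValuationSubring K₀) (q : ℕ) (V : Fin 2 → ValuationSubring F)
    (c : ℕ → ℕ → K₀) (s s' : F) : Prop where
  coeff_mem : ∀ a b, c a b ∈ A₀
  coeff_unit : A₀.valuation (c 0 0) = 1
  ne : s ≠ 0
  ne' : s' ≠ 0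
  rel : Rel q c s s'
  rel' : Rel q c s' s
  unit : ∀ i, (V i).valuation s = 1
  unit' : ∀ i, (V i).valuation s' = 1
  cong0 : (V 0).valuation (s ^ q / s' - 1) < 1
  cong1 : (V 1).valuation (s' ^ q / s - 1) < 1

end Fermat.Agent.BAD.LevelQ.Inst

end
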