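/-
Project BAD, block LevelQ, sub-block PT-INST (owner helper185): THE ETA UNIT AT LEVEL `M q`,
in the language of the hub `LQ` (`BAD/LevelQ/Hub.lean`) and of its concrete instance
(`BAD/LevelQ/Mod/Defs.lean`): `K` an abstract field embedded in `ℚ̄`, `A₀` a discrete valuation ring
of `K` of residue characteristic `q`, `q ∤ M`, `4 ∣ M` (`9 ∣ M` if `q = 2`).

`xE = G(z) / G(q z)` (helper213's `Lib.EtaUnit.etaK`), `yE = w_q xE = ε q / xE`:
* `xE * yE = ε q`, `ε = ± 1`;
* `xE` is a unit of `V 0 = v_∞`, `yE` is a unit of `V 1 = v_0`;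
* `xE`, `yE` belong to the first chart of the model (no poles off the cusps).
-/
import Fermat.Agent.BAD.LevelQ.Mod.AL
import Fermat.Agent.BAD.LevelQ.Mod.Gauss
import Fermat.Agent.BAD.LevelQ.Hub.Basic
import Fermat.Agent.Lib.EtaUnit.FK.Pack
import Fermat.Agent.S18.Descent.DVRUnif
import Fermat.Agent.BAD.LevelQ.Abs.Two
import Fermat.Agent.BAD.LevelQ.Abs.Mem

set_option autoImplicit false
set_option linter.unusedSectionVars false

noncomputable section

namespace Fermat.Agent.BAD.LevelQ.Inst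

open ModularCurve Fermat.Agent.S24 Fermat.Agent.S18 Fermat.Agent.S18.Vert
  Fermat.Agent.S18.Descent Fermat.Agent.S36.Mod IntermediateField Polynomial
  Fermat.Agent.BAD.LevelQ.Mod Fermat.Agent.Lib.EtaUnit

/-! ### generalities on valuation subrings -/
section Val

variable {F : Type*} [Field F]

theorem val_eq_one_of_mem (V : ValuationSubring F) {x : F} (h0 : x ≠ 0) (h1 : x ∈ V)
    (h2 : x⁻¹ ∈ V) : V.valuation x = 1 := by
  rw [← V.valuation_le_one_iff] at h1 h2
  rw [map_inv₀] at h2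
  have hpos : 0 < V.valuation x := zero_lt_iff.2 ((_root_.map_ne_zero _).2 h0)
  exact le_antisymm h1 ((inv_le_one₀ hpos).1 h2)

theorem mem_of_val_eq_one (V : ValuationSubring F) {x : F} (h : V.valuation x = 1) : x ∈ V := by
  rw [← V.valuation_le_one_iff, h]

theorem inv_mem_of_val_eq_one (V : ValuationSubring F) {x : F} (h : V.valuation x = 1) :
    x⁻¹ ∈ V := by
  rw [← V.valuation_le_one_iff, map_inv₀, h, inv_one]

theorem ne_zero_of_val_eq_one (V : ValuationSubring F) {x : F} (h : V.valuation x = 1) :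
    x ≠ 0 := by
  rintro rfl
  rw [map_zero] at h
  exact zero_ne_one h

/-- transport of `valuation = 1` along an automorphism. -/
theorem val_eq_one_transport {V V' : ValuationSubring F} (w : F ≃+* F)
    (h : ∀ y, y ∈ V' ↔ w y ∈ V) (y : F) : V'.valuation y = 1 ↔ V.valuation (w y) = 1 := by
  constructor
  · intro hy
    refine val_eq_one_of_mem V ?_ ((h y).1 (mem_of_val_eq_one V' hy)) ?_
    · exact (map_ne_zero_iff w w.injective).2 (ne_zero_of_val_eq_one V' hy)
    · rw [← map_inv₀]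
      exact (h _).1 (inv_mem_of_val_eq_one V' hy)
  · intro hy
    refine val_eq_one_of_mem V' ?_ ((h y).2 (mem_of_val_eq_one V hy)) ?_
    · exact (map_ne_zero_iff w w.injective).1 (ne_zero_of_val_eq_one V hy)
    · rw [h, map_inv₀]
      exact inv_mem_of_val_eq_one V hy

end Val

variable {K : Type*} [Field K] [Algebra ℚ K] [Algebra K Kbar]
  {A₀ : ValuationSubring K} [IsDiscreteValuationRing A₀] {ϖ₀ : K}
  {M q : ℕ} [NeZero M] [NeZero q]

theorem VV_zero (hc : M.Coprime q) : VV A₀ hc 0 = Og A₀ (M * q) := rfl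

theorem val_VV_one_eq_one_iff (hc : M.Coprime q) (y : FK K (M * q)) :
    (VV A₀ hc 1).valuation y = 1 ↔ (VV A₀ hc 0).valuation (ww K hc y) = 1 :=
  val_eq_one_transport (ww K hc).toRingEquiv (mem_VV_one hc) y

variable (K) in
/-- the sign `ε = ± 1` as an element of `K` -/
def epsK (q : ℕ) : K := ((eps q : ℤ) : K)

theorem epsK_eq (hq : q.Prime) : epsK K q = 1 ∨ epsK K q = -1 := by
  unfold epsK
  rcases eps_eq hq with h | h
  · left; rw [h]; simp
  · right; rw [h]; simp

theorem epsK_mul_self (hq : q.Prime) : epsK K q * epsK K q = 1 := by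
  rcases epsK_eq (K := K) hq with h | h <;> rw [h] <;> ring

theorem val_epsK (hq : q.Prime) : A₀.valuation (epsK K q) = 1 := by
  rcases epsK_eq (K := K) hq with h | h
  · rw [h, map_one]
  · rw [h, Valuation.map_neg, map_one]

variable (K) in
/-- **The eta unit** `x = G(z) / G(q z)` of level `M q`. -/
def xE (hq : q.Prime) (haux : if q = 2 then 9 ∣ M else 4 ∣ M) : FK K (M * q) :=
  etaK K q M hq haux

variable (K) in
/-- `y = w_q x`. -/
def yE (hq : q.Prime) (haux : if q = 2 then 9 ∣ M else 4 ∣ M) (hc : M.Coprime q) :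
    FK K (M * q) := ww K hc (xE K hq haux)

variable (hq : q.Prime) (haux : if q = 2 then 9 ∣ M else 4 ∣ M) (hc : M.Coprime q)

omit [Algebra K Kbar] in
theorem xE_ne_zero : xE K hq haux ≠ 0 := etaK_ne_zero K q M hq haux

theorem yE_ne_zero : yE K hq haux hc ≠ 0 :=
  (map_ne_zero_iff (ww K hc) (ww K hc).injective).2 (xE_ne_zero hq haux)

theorem ww_xE : ww K hc (xE K hq haux) = yE K hq haux hc := rfl

theorem ww_yE : ww K hc (yE K hq haux hc) = xE K hq haux := ww_ww hc _

theorem yE_eq : yE K hq haux hc =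
    algebraMap K (FK K (M * q)) (epsK K q * (q : K)) * (xE K hq haux)⁻¹ := by
  have h := wAL_etaK K q M hq haux hc
  have h1 : (((eps q * q : ℤ) : K)) = epsK K q * (q : K) := by
    unfold epsK
    push_cast
    rfl
  rw [h1] at h
  exact h

/-- `x y = ε q`. -/
theorem xE_mul_yE : xE K hq haux * yE K hq haux hc =
    algebraMap K (FK K (M * q)) (epsK K q * (q : K)) := by
  rw [yE_eq, mul_left_comm, mul_inv_cancel₀ (xE_ne_zero hq haux), mul_one]

/-- `x` is a unit at `v_∞`. -/
theorem val_zero_xE : (VV A₀ hc 0).valuation (xE K hq haux) = 1 := by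
  obtain ⟨ϖ, hϖ⟩ := IsDiscreteValuationRing.exists_irreducible A₀
  exact valuation_etaK K q M hq haux
    (isGauss_Og (isUnif_of_irreducible A₀ ϖ hϖ) (M * q))

/-- `y` is a unit at `v_0`. -/
theorem val_one_yE : (VV A₀ hc 1).valuation (yE K hq haux hc) = 1 := by
  rw [val_VV_one_eq_one_iff, ww_yE]
  exact val_zero_xE hq haux hc

/-! ### constants -/

omit [Algebra ℚ K] [Algebra K Kbar] [IsDiscreteValuationRing A₀] in
theorem val_const_lt {F : Type*} [Field F] [Algebra K F] {ι : Type*}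
    {V : ι → ValuationSubring F} {E : IntermediateField K F} (h : IsMVert A₀ ϖ₀ V E) (c : ι)
    {a : K} (ha : A₀.valuation a < 1) : (V c).valuation (algebraMap K F a) < 1 := by
  have h1 : a / ϖ₀ ∈ A₀ := (Two.lt_one_iff_div_mem h.unif₀ a).1 ha
  have h0 : ϖ₀ ≠ 0 := by
    rintro rfl
    exact h.unif₀.inv_notMem (by rw [inv_zero]; exact A₀.zero_mem)
  have h2 : algebraMap K F a = algebraMap K F ϖ₀ * algebraMap K F (a / ϖ₀) := by
    rw [← map_mul, mul_div_cancel₀ _ h0]
  rw [h2, map_mul]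
  exact mul_lt_one_of_lt_of_le (h.lt_one c) ((V c).valuation_le_one_iff _ |>.2 (h.const_mem c _ h1))

omit [Algebra ℚ K] [Algebra K Kbar] [IsDiscreteValuationRing A₀] in
theorem val_const_eq_one {F : Type*} [Field F] [Algebra K F] {ι : Type*}
    {V : ι → ValuationSubring F} {E : IntermediateField K F} (h : IsMVert A₀ ϖ₀ V E) (c : ι)
    {a : K} (ha : A₀.valuation a = 1) : (V c).valuation (algebraMap K F a) = 1 := by
  refine val_eq_one_of_mem _ ?_ (h.const_mem c _ (mem_of_val_eq_one A₀ ha)) ?_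
  · exact (_root_.map_ne_zero _).2 (ne_zero_of_val_eq_one A₀ ha)
  · rw [← map_inv₀]
    exact h.const_mem c _ (inv_mem_of_val_eq_one A₀ ha)

omit [Algebra K Kbar] [IsDiscreteValuationRing A₀] in
theorem al_jK : al K M q (jK K M) = jK K (M * q) := by
  apply Subtype.ext
  show ((heckeAlphaBar K M q (jK K M) : FK K (M * q)) : LaurentSeries K) = _
  rw [coe_heckeAlphaBar]
  rfl

/-! ### consequences of the hub -/
section Hub

variable {γ : FK K M →+* FK K M}
  (H : LQ A₀ ϖ₀ q (al K M q) (be K M q) (ww K hc) γ (Og A₀ M) (VV A₀ hc) (jK K M))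

include H

/-- `y` is a non-unit at `v_∞`. -/
theorem val_zero_yE_lt : (VV A₀ hc 0).valuation (yE K hq haux hc) < 1 := by
  have h1 := congrArg (VV A₀ hc 0).valuation (xE_mul_yE (K := K) hq haux hc)
  rw [map_mul, val_zero_xE, one_mul] at h1
  rw [h1]
  refine val_const_lt H.complete 0 ?_
  rw [map_mul, val_epsK hq, one_mul]
  exact H.char

/-- `x` is a non-unit at `v_0`. -/
theorem val_one_xE_lt : (VV A₀ hc 1).valuation (xE K hq haux) < 1 := by
  have h1 := congrArg (VV A₀ hc 1).valuation (xE_mul_yE (K := K) hq haux hc)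
  rw [map_mul, val_one_yE, mul_one] at h1
  rw [h1]
  refine val_const_lt H.complete 1 ?_
  rw [map_mul, val_epsK hq, one_mul]
  exact H.char

theorem xE_mem_VV (c : Fin 2) : xE K hq haux ∈ VV A₀ hc c := by
  rw [← (VV A₀ hc c).valuation_le_one_iff]
  fin_cases c
  · exact (val_zero_xE hq haux hc).le
  · exact (val_one_xE_lt hq haux hc H).le

theorem yE_mem_VV (c : Fin 2) : yE K hq haux hc ∈ VV A₀ hc c := by
  rw [← (VV A₀ hc c).valuation_le_one_iff]
  fin_cases c
  · exact (val_zero_yE_lt hq haux hc H).le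
  · exact (val_one_yE hq haux hc).le

/-- `x` belongs to the first chart. -/
theorem xE_mem_ch₁ : xE K hq haux ∈ ch₁ A₀ (al K M q) (be K M q) (jK K M) := by
  rw [← H.chart_al_eq, mem_chart_iff H.complete H.isMCoord_al]
  refine ⟨xE_mem_VV hq haux hc H, ?_⟩
  rw [al_jK]
  exact etaK_mem_chart_top K q M hq haux

/-- `y` belongs to the first chart. -/
theorem yE_mem_ch₁ : yE K hq haux hc ∈ ch₁ A₀ (al K M q) (be K M q) (jK K M) :=
  H.w_mem_ch₁ (xE_mem_ch₁ hq haux hc H)

end Hub

end Fermat.Agent.BAD.LevelQ.Inst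

end
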