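/-
Project BAD, block LevelQ, sub-block PT-INST (owner helper185): THE CUSP DATA AT LEVEL `M q`:
`s = 1 / j(z)`, `s' = 1 / j(q z)` satisfy the modular equation (`BAD.Model.Phi.exists_rel`) and
Kronecker's congruences `s ^ q / s' ≡ 1` at `v_∞`, `s' ^ q / s ≡ 1` at `v_0`.
-/
import Fermat.Agent.BAD.LevelQ.Inst.Defs
import Fermat.Agent.BAD.LevelQ.Inst.Eta
import Fermat.Agent.BAD.LevelQ.Mod.Kron
import Fermat.Agent.BAD.Model.Phi.Export

set_option autoImplicit false
set_option linter.unusedSectionVars false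

noncomputable section

namespace Fermat.Agent.BAD.LevelQ.Inst

open ModularCurve Fermat.Agent.S24 Fermat.Agent.S18 Fermat.Agent.S18.Vert
  Fermat.Agent.S18.Descent Fermat.Agent.S36.Mod IntermediateField Polynomial
  Fermat.Agent.BAD.LevelQ.Mod Fermat.Agent.BAD.Model

variable {K : Type*} [Field K] [Algebra ℚ K] [Algebra K Kbar]
  {A₀ : ValuationSubring K} [IsDiscreteValuationRing A₀] {ϖ₀ : K}
  {M q : ℕ} [NeZero M] [NeZero q]

omit [Algebra K Kbar] in
theorem coe_jK_eq (N : ℕ) : ((jK K N : FK K N) : LaurentSeries K) = jqModC K := by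
  show coeffEmb K jq = jqModC K
  rw [coeffEmb, ← jqModC_rat, coeffMap_jqModC]

variable (K M q) in
/-- `1 / j(z)` -/
def sC : FK K (M * q) := (al K M q (jK K M))⁻¹

variable (K M q) in
/-- `1 / j(q z)` -/
def sC' : FK K (M * q) := (be K M q (jK K M))⁻¹

theorem ww_sC (hc : M.Coprime q) : ww K hc (sC K M q) = sC' K M q := by
  unfold sC sC'
  rw [map_inv₀, ww_al]

theorem ww_sC' (hc : M.Coprime q) : ww K hc (sC' K M q) = sC K M q := by
  unfold sC sC'
  rw [map_inv₀, ww_be]

omit [Algebra K Kbar] in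
/-- the modular equation -/
theorem exists_rel_sC (hq : q.Prime) :
    ∃ c' : ℕ → ℕ → ℤ, c' 0 0 = -1 ∧
      Rel q (fun a b => ((c' a b : ℤ) : K)) (sC K M q) (sC' K M q) ∧
      Rel q (fun a b => ((c' a b : ℤ) : K)) (sC' K M q) (sC K M q) := by
  have : Fact q.Prime := ⟨hq⟩
  obtain ⟨c', h0, h⟩ := Phi.exists_rel q
  refine ⟨c', h0, h K (FK K (M * q)) K (FK K (M * q)).val.toRingHom 1
    (al K M q (jK K M)) (be K M q (jK K M)) ?_ ?_⟩
  · show ((heckeAlphaBar K M q (jK K M) : FK K (M * q)) : LaurentSeries K) = _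
    rw [coe_heckeAlphaBar, coe_jK_eq, qExpand_one_apply]
  · show ((heckeBetaBar K M q (jK K M) : FK K (M * q)) : LaurentSeries K) = _
    rw [coe_heckeBetaBar, coe_jK_eq, qExpand_one_apply]

section Hub

variable {hc : M.Coprime q} {γ : FK K M →+* FK K M}
  (H : LQ A₀ ϖ₀ q (al K M q) (be K M q) (ww K hc) γ (Og A₀ M) (VV A₀ hc) (jK K M))

include H

theorem val_sC (i : Fin 2) : (VV A₀ hc i).valuation (sC K M q) = 1 := by
  unfold sC
  rw [map_inv₀, (H.isMCoord_al i).valuation_eq_one, inv_one]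

theorem val_sC' (i : Fin 2) : (VV A₀ hc i).valuation (sC' K M q) = 1 := by
  unfold sC'
  rw [map_inv₀, (H.isMCoord_be i).valuation_eq_one, inv_one]

theorem sC_ne_zero : sC K M q ≠ 0 := ne_zero_of_val_eq_one _ (val_sC H 0)

theorem sC'_ne_zero : sC' K M q ≠ 0 := ne_zero_of_val_eq_one _ (val_sC' H 0)

/-- Kronecker's congruence at `v_∞`. -/
theorem cong_zero : (VV A₀ hc 0).valuation (sC K M q ^ q / sC' K M q - 1) < 1 := by
  have h1 : (VV A₀ hc 0).valuation (be K M q (jK K M) - al K M q (jK K M) ^ q) < 1 :=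
    kron_j H.prime H.char
  have ha : al K M q (jK K M) ≠ 0 := (H.isMCoord_al 0).ne_zero
  have h2 : sC K M q ^ q / sC' K M q - 1 =
      (be K M q (jK K M) - al K M q (jK K M) ^ q) * sC K M q ^ q := by
    unfold sC sC'
    rw [div_inv_eq_mul, sub_mul, inv_pow, mul_inv_cancel₀ (pow_ne_zero q ha)]
    ring
  rw [h2, map_mul, map_pow, val_sC H 0, one_pow, mul_one]
  exact h1

/-- Kronecker's congruence at `v_0`. -/
theorem cong_one : (VV A₀ hc 1).valuation (sC' K M q ^ q / sC K M q - 1) < 1 := by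
  rw [Kron.val_lt_one_transport (ww K hc).toRingEquiv (mem_VV_one hc)]
  show (VV A₀ hc 0).valuation (ww K hc (sC' K M q ^ q / sC K M q - 1)) < 1
  rw [map_sub, map_div₀, map_pow, map_one, ww_sC, ww_sC']
  exact cong_zero H

/-- **The cusp data of level `M q`.** -/
theorem exists_cuspData2 :
    ∃ c : ℕ → ℕ → K, CuspData2 A₀ q (VV A₀ hc) c (sC K M q) (sC' K M q) := by
  obtain ⟨c', h0, h1, h2⟩ := exists_rel_sC (K := K) (M := M) H.prime
  refine ⟨fun a b => ((c' a b : ℤ) : K), ?_⟩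
  exact
  { coeff_mem := fun a b => intCast_mem A₀ _
    coeff_unit := by
      show A₀.valuation ((c' 0 0 : ℤ) : K) = 1
      rw [h0]
      simp
    ne := sC_ne_zero H
    ne' := sC'_ne_zero H
    rel := h1
    rel' := h2
    unit := val_sC H
    unit' := val_sC' H
    cong0 := cong_zero H
    cong1 := cong_one H }

end Hub

end Fermat.Agent.BAD.LevelQ.Inst

end
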