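/-
Project BAD, block LevelQ, sub-block PT-INST (owner helper185): THE INSTANCE of the abstract
classification of the closed points of the model of level `M q` (`LQ.exists_point`,
`BAD/LevelQ/Pt/B/ExportPL.lean`):

* general `K`, `A₀` (a discrete valuation ring of residue characteristic `q`), given the hub
  `H : LQ A₀ ϖ₀ q al be ww γ Og VV (jK K M)`:
  `eta : Eta (q : F) VV xE yQ`, `xE_mem_ch₁`, `yQ_mem_ch₁`, `exists_cuspQ`;
* the inertia field `K0 A`, `A0 A`, `q ≥ 5`, `4 ∣ M`, `q ∤ M`: `lq_j` (the hub with `x' = j`),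
  `exists_inst` (everything) and `exists_point_inertia` (the conclusion of `LQ.exists_point`).
-/
import Fermat.Agent.BAD.LevelQ.Inst.Cusp
import Fermat.Agent.BAD.LevelQ.Mod.MainSub
import Fermat.Agent.BAD.LevelQ.Mod.PoleJ
import Fermat.Agent.BAD.LevelQ.Pt.B.ExportPL
import Fermat.Agent.S34.Nodal.Inst.Base
import Fermat.Agent.Lib.InertiaField.Residue
import Fermat.Agent.Lib.InertiaField.Unram

set_option autoImplicit false
set_option linter.unusedSectionVars false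

noncomputable section

namespace Fermat.Agent.BAD.LevelQ.Inst

open ModularCurve Fermat.Agent.S24 Fermat.Agent.S18 Fermat.Agent.S18.Vert
  Fermat.Agent.S18.Descent Fermat.Agent.S36.Mod IntermediateField Polynomial
  Fermat.Agent.BAD.LevelQ.Mod Fermat.Agent.BAD.Model Fermat.Agent.Lib.InertiaField

variable {K : Type*} [Field K] [Algebra ℚ K] [Algebra K Kbar]
  {A₀ : ValuationSubring K} [IsDiscreteValuationRing A₀] {ϖ₀ : K}
  {M q : ℕ} [NeZero M] [NeZero q]

variable (K) in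
/-- `y = ε w_q x = q / x`. -/
def yQ (hq : q.Prime) (haux : if q = 2 then 9 ∣ M else 4 ∣ M) (hc : M.Coprime q) :
    FK K (M * q) := algebraMap K (FK K (M * q)) (epsK K q) * yE K hq haux hc

variable (hq : q.Prime) (haux : if q = 2 then 9 ∣ M else 4 ∣ M) (hc : M.Coprime q)

/-- `x y = q`. -/
theorem xE_mul_yQ : xE K hq haux * yQ K hq haux hc = (q : FK K (M * q)) := by
  unfold yQ
  rw [mul_left_comm, xE_mul_yE, ← map_mul, ← mul_assoc, epsK_mul_self hq, one_mul, map_natCast]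

theorem yQ_eq : yQ K hq haux hc = (q : FK K (M * q)) / xE K hq haux := by
  rw [eq_div_iff (xE_ne_zero hq haux), mul_comm (yQ K hq haux hc), xE_mul_yQ]

section Hub

variable {γ : FK K M →+* FK K M}
  (H : LQ A₀ ϖ₀ q (al K M q) (be K M q) (ww K hc) γ (Og A₀ M) (VV A₀ hc) (jK K M))

include H hq

theorem val_epsK_VV (c : Fin 2) :
    (VV A₀ hc c).valuation (algebraMap K (FK K (M * q)) (epsK K q)) = 1 :=
  val_const_eq_one H.complete c (val_epsK hq)

theorem val_one_yQ : (VV A₀ hc 1).valuation (yQ K hq haux hc) = 1 := by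
  unfold yQ
  rw [map_mul, val_epsK_VV hq hc H, one_mul, val_one_yE]

/-- **The eta pair** in the shape of `Pt/B/Defs.lean`. -/
theorem eta : Eta (q : FK K (M * q)) (VV A₀ hc) (xE K hq haux) (yQ K hq haux hc) where
  mul_eq := xE_mul_yQ hq haux hc
  x_unit := val_zero_xE hq haux hc
  y_unit := val_one_yQ hq haux hc H

theorem yQ_mem_ch₁ : yQ K hq haux hc ∈ ch₁ A₀ (al K M q) (be K M q) (jK K M) := by
  unfold yQ
  refine Subring.mul_mem _ ?_ (yE_mem_ch₁ hq haux hc H)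
  rcases epsK_eq (K := K) hq with h | h
  · rw [h, map_one]; exact Subring.one_mem _
  · rw [h, map_neg, map_one]; exact Subring.neg_mem _ (Subring.one_mem _)

omit hq in
/-- **The cusp data** in the shape of `Pt/B/Defs.lean`. -/
theorem exists_cuspQ : ∃ c : ℕ → ℕ → K,
    CuspQ A₀ q (VV A₀ hc) c (al K M q (jK K M))⁻¹ (be K M q (jK K M))⁻¹ := by
  obtain ⟨c, h⟩ := exists_cuspData2 H
  exact ⟨c,
    { coeff_mem := h.coeff_mem
      coeff_unit := h.coeff_unit
      ne := h.ne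
      ne' := h.ne'
      rel := h.rel
      cong0 := h.cong0
      cong1 := h.cong1 }⟩

end Hub

/-! ### the base coordinate `j` -/

omit [Algebra K Kbar] [NeZero M] [NeZero q] in
theorem xK_eq_jK (D : BaseData M q) (hD : D.X = S18.Base.mkX (-1) jNum) :
    D.xK K = jK K M := by
  apply Subtype.ext
  show coeffEmb K (coeffMap (Int.castRingHom ℚ) D.X) = coeffEmb K jq
  rw [hD, S18.Base.coeffMap_mkX_jNum]

include hq in
/-- **The hub over a subfield of `ℚ̄` stable under the decomposition group, `x' = j`.** -/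
theorem lq_sub_j (A : ValuationSubring Kbar) (h5 : 5 ≤ q) (hA : A.LiesOverPrime q)
    (K₀ : IntermediateField ℚ Kbar)
    (hK : ∀ σ : Kbar ≃ₐ[ℚ] Kbar, σ ∈ A.decompositionSubgroup ℚ → ∀ x ∈ K₀, σ x ∈ K₀)
    [IsDiscreteValuationRing (A.comap (algebraMap K₀ Kbar))] {ϖ₀ : K₀}
    (h₀ : IsUnif (A.comap (algebraMap K₀ Kbar)) ϖ₀) :
    ∃ γ₀ : K₀ →+* K₀, IsFrobInv (A.comap (algebraMap K₀ Kbar)) q γ₀ ∧
      LQ (A.comap (algebraMap K₀ Kbar)) ϖ₀ q (al K₀ M q) (be K₀ M q) (ww K₀ hc) (gam K₀ γ₀ M)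
        (Og (A.comap (algebraMap K₀ Kbar)) M) (VV (A.comap (algebraMap K₀ Kbar)) hc)
        (jK K₀ M) := by
  obtain ⟨D, hX, hD⟩ := S34.Nodal.Inst.Base.exists_baseData_j M q hq h5
  obtain ⟨γ₀, h1, h2⟩ := lq_sub A hq hA K₀ hK h₀ hc D (beInt_j D hD)
  rw [xK_eq_jK D hX] at h2
  exact ⟨γ₀, h1, h2⟩

include hq in
/-- **The hub over the inertia field, `x' = j`.** -/
theorem lq_j (A : ValuationSubring Kbar) (h5 : 5 ≤ q) (hA : A.LiesOverPrime q)
    [IsDiscreteValuationRing (A0 A)] :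
    ∃ γ₀ : K0 A →+* K0 A, IsFrobInv (A0 A) q γ₀ ∧
      LQ (A0 A) (q : K0 A) q (al (K0 A) M q) (be (K0 A) M q) (ww (K0 A) hc) (gam (K0 A) γ₀ M)
        (Og (A0 A) M) (VV (A0 A) hc) (jK (K0 A) M) := by
  obtain ⟨D, hX, hD⟩ := S34.Nodal.Inst.Base.exists_baseData_j M q hq h5
  obtain ⟨γ₀, h1, h2⟩ := lq_inertia A hq hA hc D (beInt_j D hD)
  rw [xK_eq_jK D hX] at h2
  exact ⟨γ₀, h1, h2⟩

theorem haux_of (h5 : 5 ≤ q) (h4 : 4 ∣ M) : if q = 2 then 9 ∣ M else 4 ∣ M := by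
  rw [if_neg (by omega)]
  exact h4

/-- **PT-INST**: all the inputs of `LQ.exists_point` over the inertia field. -/
theorem exists_inst (A : ValuationSubring Kbar) (h5 : 5 ≤ q) (hA : A.LiesOverPrime q)
    (h4 : 4 ∣ M) [IsDiscreteValuationRing (A0 A)] :
    ∃ (γ₀ : K0 A →+* K0 A) (c : ℕ → ℕ → K0 A), IsFrobInv (A0 A) q γ₀ ∧
      LQ (A0 A) (q : K0 A) q (al (K0 A) M q) (be (K0 A) M q) (ww (K0 A) hc) (gam (K0 A) γ₀ M)
        (Og (A0 A) M) (VV (A0 A) hc) (jK (K0 A) M) ∧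
      Eta (q : FK (K0 A) (M * q)) (VV (A0 A) hc) (xE (K0 A) hq (haux_of h5 h4))
        (yQ (K0 A) hq (haux_of h5 h4) hc) ∧
      xE (K0 A) hq (haux_of h5 h4) ∈ ch₁ (A0 A) (al (K0 A) M q) (be (K0 A) M q) (jK (K0 A) M) ∧
      yQ (K0 A) hq (haux_of h5 h4) hc ∈ ch₁ (A0 A) (al (K0 A) M q) (be (K0 A) M q) (jK (K0 A) M) ∧
      CuspQ (A0 A) q (VV (A0 A) hc) c (al (K0 A) M q (jK (K0 A) M))⁻¹
        (be (K0 A) M q (jK (K0 A) M))⁻¹ := by
  obtain ⟨γ₀, h1, H⟩ := lq_j hq hc A h5 hA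
  obtain ⟨c, hC⟩ := exists_cuspQ hc H
  exact ⟨γ₀, c, h1, H, eta hq _ hc H, xE_mem_ch₁ hq _ hc H, yQ_mem_ch₁ hq _ hc H, hC⟩

/-- **The closed points of the model of level `M q` over the inertia field**: every valuation ring
`W ⊊ V 0` containing `A0 A` is centred at a closed point `R` of the model, which is a node
`x y = q` or a smooth point where `x` is a unit if `j(z)` is integral at the place, and a smooth
point if `j(z)` has a pole. -/
theorem exists_point_inertia (A : ValuationSubring Kbar) (h5 : 5 ≤ q) (hA : A.LiesOverPrime q)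
    (h4 : 4 ∣ M) [IsDiscreteValuationRing (A0 A)]
    (W : ValuationSubring (FK (K0 A) (M * q)))
    (hW : ∀ a ∈ A0 A, algebraMap (K0 A) (FK (K0 A) (M * q)) a ∈ W)
    (hle : W ≤ VV (A0 A) hc 0) (hne : W ≠ VV (A0 A) hc 0) :
    ∃ R : Subring (FK (K0 A) (M * q)),
      IsModelPt (A0 A) (q : K0 A) (xx (al (K0 A) M q) (be (K0 A) M q) (jK (K0 A) M)) R ∧
      Dominates W R ∧
      (al (K0 A) M q (jK (K0 A) M) ∈ W →
        S44.PL.IsNode (A0 A) q R (VV (A0 A) hc 0) (VV (A0 A) hc 1)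
            (xE (K0 A) hq (haux_of h5 h4)) (yQ (K0 A) hq (haux_of h5 h4) hc) ∨
          (S44.PL.IsSmooth (A0 A) q R (VV (A0 A) hc 0) ∧
            S36.BP.RUnit R (xE (K0 A) hq (haux_of h5 h4)))) ∧
      (al (K0 A) M q (jK (K0 A) M) ∉ W → S44.PL.IsSmooth (A0 A) q R (VV (A0 A) hc 0)) := by
  obtain ⟨γ₀, c, -, H, E, hx, hy, C⟩ := exists_inst hq hc A h5 hA h4
  exact H.exists_point (isAlgClosed_residueField_A0 A q hq hA) E hx hy C W hW hle hne

end Fermat.Agent.BAD.LevelQ.Inst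

end
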